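import Mathlib
import Fermat.Prelude.Thm_CongruenceSubgroup_one_mem_strictPeriods_Gamma0
import Fermat.Agent.MU.F3.DictC.EmbF
import Fermat.Agent.MU.F3.DictC.Val
import Fermat.Agent.F3.I2.DictInterface

section MergeWrap_F3_Dict_RatioBridge -- from F3/Dict/RatioBridge.lean

set_option autoImplicit false

noncomputable section

namespace Fermat.Agent.F3Ratio

open UpperHalfPlane CongruenceSubgroup Fermat.Agent.F3Dict
open scoped MatrixGroups ModularForm

/-- A modular form as an element of `Fun`. -/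
def mfFun {N : ℕ} {w : ℤ} (A : ModularForm (Gamma0 N) w) : Fun := fun τ => A τ

@[simp] theorem mfFun_apply {N : ℕ} {w : ℤ} (A : ModularForm (Gamma0 N) w) (τ : ℍ) :
    mfFun A τ = A τ := rfl

theorem isHol_mfFun {N : ℕ} {w : ℤ} (A : ModularForm (Gamma0 N) w) : IsHol (mfFun A) :=
  ModularFormClass.holo A

/-- "HasExp of a modular form = its `q`-expansion", power series form, in `q = u₁`. -/
theorem hasPExp_mfFun {N : ℕ} {w : ℤ} (A : ModularForm (Gamma0 N) w) :
    HasPExp 1 (mfFun A) (UpperHalfPlane.qExpansion 1 A) := by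
  intro τ
  have hΓ := CongruenceSubgroup.one_mem_strictPeriods_Gamma0 N
  have : Fact (IsCusp OnePoint.infty
      (Subgroup.map (Matrix.SpecialLinearGroup.mapGL ℝ) (CongruenceSubgroup.Gamma0 N))) :=
    ⟨Subgroup.isCusp_of_mem_strictPeriods one_pos hΓ⟩
  have h := ModularForm.hasSum_qExpansion (f := A) one_pos hΓ τ
  have hu : uParam 1 τ = Function.Periodic.qParam 1 (τ : ℂ) := by
    simp [uParam]
  have e : (fun n : ℕ => iota (PowerSeries.coeff n (UpperHalfPlane.qExpansion 1 A)) *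
        uParam 1 τ ^ n)
      = fun m : ℕ => (PowerSeries.coeff m) (UpperHalfPlane.qExpansion 1 A) *
          Function.Periodic.qParam 1 (τ : ℂ) ^ m := by
    funext n
    rw [hu, iota_apply]
  refine ⟨?_, ?_⟩
  · have := h.summable.norm
    simpa [norm_mul, norm_pow, hu] using this
  · rw [e]
    exact h


/-- "HasExp of a modular form = its `q`-expansion": the expansion in `u_M = q^{1/M}` of a modular
form on `Γ₀(N)` is its `q`-expansion with `q ↦ u^M`. -/
theorem hasExp_mfFun (M : ℕ) [NeZero M] {N : ℕ} {w : ℤ} (A : ModularForm (Gamma0 N) w) :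
    HasExp M (mfFun A) (ModularCurve.qExpand Kc M (F3I2.qLaurent A)) := by
  have h1 : HasExp 1 (mfFun A) (HahnSeries.ofPowerSeries ℤ Kc (UpperHalfPlane.qExpansion 1 A)) :=
    HasExp.of_hasPExp (hasPExp_mfFun A)
  have : NeZero (1 * M) := ⟨by simpa using NeZero.ne M⟩
  have h2 := HasExp.qExpand (M := 1) M h1
  have e : 1 * M = M := one_mul M
  rw [e] at h2
  exact h2

/-- `mfFun A = 0 ↔ A = 0`. -/
theorem mfFun_eq_zero_iff {N : ℕ} {w : ℤ} (A : ModularForm (Gamma0 N) w) :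
    mfFun A = 0 ↔ A = 0 := by
  constructor
  · intro h
    ext τ
    exact congrFun h τ
  · rintro rfl
    rfl

/-- The cross-multiplication identity: if `x = A / B` (`q`-expansions) and `φ x = a / b` in
`LL M` (`a, b ∈ AL M`), then `A · b = B · a` as functions on `ℍ`. -/
theorem mul_eq_mul_of_isRatio {N M : ℕ} [NeZero N] [NeZero M] (hNM : N ∣ M) (x : ↥(FC N))
    {w : ℤ} (A B : ModularForm (Gamma0 N) w) (h : F3I2.IsRatio N x A B) (a b : AL M)
    (hx : EmbFHom.embHom N M hNM x * algebraMap (AL M) (LL M) b = algebraMap (AL M) (LL M) a) :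
    mfFun A * (b : Fun) = mfFun B * (a : Fun) := by
  have e1 : EmbFHom.expLL M (EmbFHom.embHom N M hNM x)
      = ModularCurve.qExpand Kc M (x : LaurentSeries Kc) := EmbFHom.expLL_embHom N M hNM x
  have e2 := congrArg (EmbFHom.expLL M) hx
  rw [map_mul, EmbFHom.expLL_algebraMap, EmbFHom.expLL_algebraMap, e1] at e2
  have hA := (hasExp_mfFun M A).mul (EmbFHom.hasExp_expAL M b)
  have hB := (hasExp_mfFun M B).mul (EmbFHom.hasExp_expAL M a)
  have key : ModularCurve.qExpand Kc M (F3I2.qLaurent A) * EmbFHom.expAL M b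
      = ModularCurve.qExpand Kc M (F3I2.qLaurent B) * EmbFHom.expAL M a := by
    rw [h.2, map_mul, ← e2]
    ring
  rw [key] at hA
  exact hA.fun_unique hB


theorem ordAt_mfFun_ne_top {N : ℕ} {w : ℤ} {A : ModularForm (Gamma0 N) w} (hA : A ≠ 0) (τ : ℍ) :
    F3Dict.ordAt τ (mfFun A) ≠ ⊤ := by
  rw [Ne, (isHol_mfFun A).ordAt_eq_top_iff, mfFun_eq_zero_iff]
  exact hA

theorem F3I2_ordAt_eq {N : ℕ} {w : ℤ} (A : ModularForm (Gamma0 N) w) (τ : ℍ) :
    F3I2.ordAt A τ = ((F3Dict.ordAt τ (mfFun A)).toNat : ℤ) := rfl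

/-- **(R), the ratio bridge at `τ ∈ ℍ`.**  If `x = A / B` (`F3I2.IsRatio`, `A ≠ 0`) then
`-log (valLL M τ (φ x)) = ord_τ A - ord_τ B`, for the embedding `φ = embHom N M` of `FC N` in
`LL M` (`N ∣ M`). -/
theorem neg_log_valLL_embHom {N M : ℕ} [NeZero N] [NeZero M] (hNM : N ∣ M) (x : ↥(FC N))
    {w : ℤ} (A B : ModularForm (Gamma0 N) w) (hA : A ≠ 0) (h : F3I2.IsRatio N x A B) (τ : ℍ) :
    -WithZero.log (valLL M τ (EmbFHom.embHom N M hNM x)) = F3I2.ordAt A τ - F3I2.ordAt B τ := by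
  obtain ⟨a, b, hb, hab⟩ := IsFractionRing.div_surjective (A := AL M) (EmbFHom.embHom N M hNM x)
  have hb0 : b ≠ 0 := nonZeroDivisors.ne_zero hb
  have hbL : algebraMap (AL M) (LL M) b ≠ 0 := by
    intro h0
    exact hb0 ((IsFractionRing.injective (AL M) (LL M)) (by rw [h0, map_zero]))
  have hx : EmbFHom.embHom N M hNM x * algebraMap (AL M) (LL M) b
      = algebraMap (AL M) (LL M) a := by
    rw [← hab, div_mul_cancel₀ _ hbL]
  have hmul := mul_eq_mul_of_isRatio hNM x A B h a b hx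
  have hoA := ordAt_mfFun_ne_top hA τ
  have hoB := ordAt_mfFun_ne_top h.1 τ
  have hob : F3Dict.ordAt τ (b : Fun) ≠ ⊤ := by
    rw [Ne, (isHol_of_mem_AL b.2).ordAt_eq_top_iff]
    intro h0
    exact hb0 (Subtype.ext h0)
  have hsum : F3Dict.ordAt τ (mfFun A) + F3Dict.ordAt τ (b : Fun)
      = F3Dict.ordAt τ (mfFun B) + F3Dict.ordAt τ (a : Fun) := by
    rw [← (isHol_mfFun A).ordAt_mul (isHol_of_mem_AL b.2),
      ← (isHol_mfFun B).ordAt_mul (isHol_of_mem_AL a.2), hmul]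
  have hoa : F3Dict.ordAt τ (a : Fun) ≠ ⊤ := by
    intro h0
    rw [h0, add_top] at hsum
    exact (WithTop.add_ne_top.mpr ⟨hoA, hob⟩) hsum
  obtain ⟨kA, hkA⟩ := ENat.ne_top_iff_exists.mp hoA
  obtain ⟨kB, hkB⟩ := ENat.ne_top_iff_exists.mp hoB
  obtain ⟨ka, hka⟩ := ENat.ne_top_iff_exists.mp hoa
  obtain ⟨kb, hkb⟩ := ENat.ne_top_iff_exists.mp hob
  rw [← hkA, ← hkB, ← hka, ← hkb] at hsum
  have hsum' : kA + kb = kB + ka := by exact_mod_cast hsum
  rw [F3I2_ordAt_eq, F3I2_ordAt_eq, ← hkA, ← hkB, ← hab, map_div₀, valLL_algebraMap,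
    valLL_algebraMap, valAL_apply, valAL_apply, ← hka, ← hkb, expNeg_coe, expNeg_coe,
    WithZero.log_div WithZero.exp_ne_zero WithZero.exp_ne_zero, WithZero.log_exp,
    WithZero.log_exp, ENat.toNat_natCast, ENat.toNat_natCast]
  omega

end Fermat.Agent.F3Ratio
end
end MergeWrap_F3_Dict_RatioBridge
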