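import Mathlib
import Fermat.Prelude.Def_AlgebraicCurve_CanonicalDivisor
import Fermat.Agent.MU.S24.ZeroPlaces
import Fermat.Agent.S24.Residue
import Fermat.Agent.F3.Dict.PlaceVal
import Fermat.Agent.MU.S24.Glue

section MergeWrap_F3_Dict_PlacesFibre -- from F3/Dict/PlacesFibre.lean

set_option autoImplicit false
set_option linter.style.haveILetI false

noncomputable section
open IntermediateField Polynomial AlgebraicCurve IsDedekindDomain
open scoped IntermediateField.algebraAdjoinAdjoin Pointwise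

namespace Fermat.Agent.F3Places
open Fermat.Agent.S24Gal Fermat.Agent.S24Fib

variable {K F L Γ : Type*} [Field K] [IsAlgClosed K] [CharZero K]
    [Field F] [Algebra K F] [Field L] [Algebra K L] [Algebra F L] [IsScalarTower K F L]
    [Group Γ] [MulSemiringAction Γ L] [SMulCommClass Γ K L]

set_option maxHeartbeats 1000000 in
set_option synthInstance.maxHeartbeats 400000 in
/-- (F1) Every place of `F` above `t = 0` is induced by a `Γ`-translate of `w`. -/
theorem exists_smul_le_one_of_place'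
    (t : F) (httr : Transcendental K t)
    (hfin : ∃ Γ' : Subgroup Γ, Γ'.FiniteIndex ∧ ∀ g ∈ Γ', ∀ x : L, g • x = x)
    (ht : ∀ g : Γ, g • algebraMap F L t = algebraMap F L t)
    (hfix : ∀ x : L, (∀ g : Γ, g • x = x) →
      x ∈ IntermediateField.adjoin K {algebraMap F L t})
    (w : Valuation L (WithZero (Multiplicative ℤ))) (s : ℕ)
    (hwK : ∀ a : K, a ≠ 0 → w (algebraMap K L a) = 1)
    (hs : 0 < s)
    (hw : w (algebraMap F L t) = WithZero.exp (-(s : ℤ)))
    (v : Place K F) (hv : 0 < v.ord t) :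
    ∃ γ : Γ, ∀ x ∈ v.toValuationSubring, w (γ • algebraMap F L x) ≤ 1 := by
  -- groups
  haveI : Finite (imageGroup Γ L) := finite_imageGroup hfin
  have hG : IsGaloisGroup (imageGroup Γ L) K⟮t⟯ L := isGaloisGroup_imageGroup t ht hfix
  have hGF : IsGaloisGroup (fixF Γ L F) F L := IsGaloisGroup.of_isScalarTower _ K⟮t⟯ L F
  haveI : FiniteDimensional K⟮t⟯ L := hG.finiteDimensional
  haveI : FiniteDimensional F L := hGF.finiteDimensional
  haveI : FiniteDimensional K⟮t⟯ F := FiniteDimensional.left K⟮t⟯ F L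
  -- rings
  haveI := isDedekindDomain_adjoin httr
  haveI := isDedekindDomain_integralClosure F httr
  haveI := isDedekindDomain_integralClosure L httr
  haveI := isFractionRing_integralClosure (K := K) F t
  haveI := isFractionRing_integralClosure (K := K) L t
  haveI := finite_integralClosure L httr
  haveI := flat_integralClosure L httr
  haveI hcommK : SMulCommClass (imageGroup Γ L) K⟮t⟯ L := hG.commutes
  haveI hcommA : SMulCommClass (imageGroup Γ L) (Algebra.adjoin K {t}) L :=
    ⟨fun σ a x => by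
      rw [← IsScalarTower.algebraMap_smul K⟮t⟯ a x, smul_comm,
        IsScalarTower.algebraMap_smul K⟮t⟯ a (σ • x)]⟩
  haveI hI1 : IsGaloisGroup (imageGroup Γ L) (Algebra.adjoin K {t})
      (integralClosure (Algebra.adjoin K {t}) L) :=
    IsGaloisGroup.of_isFractionRing (imageGroup Γ L) (Algebra.adjoin K {t})
      (integralClosure (Algebra.adjoin K {t}) L) K⟮t⟯ L
  letI := algebraBFBL (K := K) (L := L) t
  haveI := isScalarTower_A_BF_BL (K := K) (L := L) t
  haveI := isScalarTower_BF_BL_L (K := K) (L := L) t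
  haveI := faithfulSMul_BF_BL (K := K) (L := L) t
  haveI : Algebra.IsIntegral (Algebra.adjoin K {t}) (integralClosure (Algebra.adjoin K {t}) L) :=
    inferInstance
  haveI : Algebra.IsIntegral (integralClosure (Algebra.adjoin K {t}) F)
      (integralClosure (Algebra.adjoin K {t}) L) :=
    Algebra.IsIntegral.tower_top (Algebra.adjoin K {t})
  haveI hI2 : IsGaloisGroup (fixF Γ L F) (integralClosure (Algebra.adjoin K {t}) F)
      (integralClosure (Algebra.adjoin K {t}) L) :=
    IsGaloisGroup.of_isFractionRing (fixF Γ L F) (integralClosure (Algebra.adjoin K {t}) F)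
      (integralClosure (Algebra.adjoin K {t}) L) F L
  -- the valuation on `B_L`
  have hwt1 : w (algebraMap F L t) ≤ 1 := by
    rw [hw, ← WithZero.exp_zero, WithZero.exp_le_exp]
    omega
  let w' : Valuation (integralClosure (Algebra.adjoin K {t}) L) (WithZero (Multiplicative ℤ)) :=
    w.comap (algebraMap (integralClosure (Algebra.adjoin K {t}) L) L)
  have hw' : ∀ b, w' b ≤ 1 := fun b =>
    valuation_le_one_of_isIntegral w (valuation_adjoin_le_one w hwK t hwt1) b.2
  have hw't : w' (algebraMap (Algebra.adjoin K {t}) (integralClosure (Algebra.adjoin K {t}) L)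
      (tA K t)) = WithZero.exp (-(s : ℤ)) := hw
  have hwt2 : w' (algebraMap (Algebra.adjoin K {t}) (integralClosure (Algebra.adjoin K {t}) L)
      (tA K t)) < 1 := by
    rw [hw't, ← WithZero.exp_zero, WithZero.exp_lt_exp]
    omega
  haveI hQover : (Fermat.Agent.S24Dec.centre w' hw').LiesOver (Ideal.span {tA K t}) :=
    Fermat.Agent.S24Dec.centre_liesOver w' hw' (tA K t) (isMaximal_span_tA httr) hwt2
  -- the prime of `B_F` attached to `v`
  have hmax := isMaximal_span_tA httr
  have ht0 : t ≠ 0 := fun h => httr (h ▸ isAlgebraic_zero)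
  have htB : algebraMap (integralClosure (Algebra.adjoin K {t}) F) F (algebraMap (Algebra.adjoin K {t}) (integralClosure (Algebra.adjoin K {t}) F) (tA K t)) = t := rfl
  have htB0 : algebraMap (Algebra.adjoin K {t}) (integralClosure (Algebra.adjoin K {t}) F) (tA K t) ≠ 0 := by
    intro h
    apply ht0
    rw [← htB, h, map_zero]
  have htv : t ∈ v.toValuationSubring := Fermat.Agent.S24Res.mem_of_ord_nonneg v hv.le
  have hA := algebraMap_adjoin_mem v htv
  have hB : ∀ b : (integralClosure (Algebra.adjoin K {t}) F), algebraMap (integralClosure (Algebra.adjoin K {t}) F) F b ∈ v.toValuationSubring := fun b =>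
    Fermat.Agent.S24Bridge.mem_of_isIntegral v hA b.2
  obtain ⟨P, hP⟩ := Fermat.Agent.S24Bridge.exists_eq_ofHeightOneSpectrum v hB
  have hmem : algebraMap (Algebra.adjoin K {t}) (integralClosure (Algebra.adjoin K {t}) F) (tA K t) ∈ P.asIdeal := by
    rw [Fermat.Agent.S24Bridge.mem_asIdeal_iff_ord_pos (K := K) (F := F) P _ htB0, htB, ← hP]
    exact hv
  have hover : P.asIdeal.LiesOver (Ideal.span {tA K t}) := by
    constructor
    have hle : Ideal.span {tA K t} ≤ P.asIdeal.under (Algebra.adjoin K {t}) := by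
      rw [Ideal.span_le, Set.singleton_subset_iff]
      exact hmem
    have hne : P.asIdeal.under (Algebra.adjoin K {t}) ≠ ⊤ :=
      (Ideal.comap_isPrime _ P.asIdeal).ne_top
    exact hmax.eq_of_le hne hle
  -- transitivity
  obtain ⟨σ, hσ⟩ := Fermat.Agent.S24Orb.belowPrime_surjective (B := integralClosure (Algebra.adjoin K {t}) F) (G := imageGroup Γ L)
    (fixF Γ L F) (Ideal.span {tA K t}) (Fermat.Agent.S24Dec.centre w' hw')
    ⟨P.asIdeal, P.isPrime, hover⟩
  have hσ' : ((σ⁻¹ • Fermat.Agent.S24Dec.centre w' hw').under (integralClosure (Algebra.adjoin K {t}) F)) = P.asIdeal :=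
    congrArg Subtype.val hσ
  obtain ⟨γ, rfl⟩ := toImage_surjective (Γ := Γ) (L := L) σ
  -- membership in `P` in terms of `w`
  have hPw : ∀ b : (integralClosure (Algebra.adjoin K {t}) F), b ∈ P.asIdeal ↔ w (γ • algebraMap F L (b : F)) < 1 := by
    intro b
    rw [← hσ', Ideal.under_def, Ideal.mem_comap, Ideal.mem_inv_pointwise_smul_iff,
      Fermat.Agent.S24Dec.mem_centre]
    rfl
  have hBw : ∀ b : (integralClosure (Algebra.adjoin K {t}) F), w (γ • algebraMap F L (b : F)) ≤ 1 := by
    intro b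
    exact hw' ((toImage Γ L γ) • (algebraMap (integralClosure (Algebra.adjoin K {t}) F) (integralClosure (Algebra.adjoin K {t}) L) b))
  refine ⟨γ, fun x hx => ?_⟩
  rw [hP] at hx
  obtain ⟨b, s', hs', rfl⟩ := Fermat.Agent.S24Bridge.exists_div_of_mem P hx
  have h1 : w (γ • algebraMap F L (s' : F)) = 1 := by
    refine le_antisymm (hBw s') ?_
    by_contra hlt
    rw [not_le] at hlt
    exact hs' ((hPw s').mpr hlt)
  rw [map_div₀, smul_div₀', map_div₀]
  show w (γ • algebraMap F L (b : F)) / w (γ • algebraMap F L (s' : F)) ≤ 1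
  rw [h1, div_one]
  exact hBw b

end Fermat.Agent.F3Places
end
end MergeWrap_F3_Dict_PlacesFibre

section MergeWrap_F3_Dict_PlacesGlobal -- from F3/Dict/PlacesGlobal.lean

set_option autoImplicit false
set_option linter.style.haveILetI false

noncomputable section
open IntermediateField AlgebraicCurve

namespace Fermat.Agent.F3Places
open Fermat.Agent.S24Gal

variable {K F L Γ : Type*} [Field K] [IsAlgClosed K] [CharZero K]
    [Field F] [Algebra K F] [Field L] [Algebra K L] [Algebra F L] [IsScalarTower K F L]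
    [Group Γ] [MulSemiringAction Γ L] [SMulCommClass Γ K L]

/-- the valuation `x ↦ w (γ • x)` of `F`. -/
def pullVal (w : Valuation L (WithZero (Multiplicative ℤ))) (γ : Γ) :
    Valuation F (WithZero (Multiplicative ℤ)) :=
  (w.comap (MulSemiringAction.toRingHom Γ L γ)).comap (algebraMap F L)

@[simp] theorem pullVal_apply (w : Valuation L (WithZero (Multiplicative ℤ))) (γ : Γ) (x : F) :
    pullVal (F := F) w γ x = w (γ • algebraMap F L x) := rfl

/-- (F1) + (V2): every place of `F` above `t = 0` is `x ↦ w (γ • x)` up to a factor `e`. -/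
theorem exists_smul_ord_eq_of_place'
    (t : F) (httr : Transcendental K t)
    (hfin : ∃ Γ' : Subgroup Γ, Γ'.FiniteIndex ∧ ∀ g ∈ Γ', ∀ x : L, g • x = x)
    (ht : ∀ g : Γ, g • algebraMap F L t = algebraMap F L t)
    (hfix : ∀ x : L, (∀ g : Γ, g • x = x) →
      x ∈ IntermediateField.adjoin K {algebraMap F L t})
    (w : Valuation L (WithZero (Multiplicative ℤ))) (s : ℕ)
    (hwK : ∀ a : K, a ≠ 0 → w (algebraMap K L a) = 1)
    (hs : 0 < s)
    (hw : w (algebraMap F L t) = WithZero.exp (-(s : ℤ)))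
    (v : Place K F) (hv : 0 < v.ord t) :
    ∃ (γ : Γ) (e : ℕ), 0 < e ∧
      ∀ x : F, x ≠ 0 → -WithZero.log (w (γ • algebraMap F L x)) = (e : ℤ) * v.ord x := by
  obtain ⟨γ, hγ⟩ := exists_smul_le_one_of_place' t httr hfin ht hfix w s hwK hs hw v hv
  have ht0 : t ≠ 0 := fun h => httr (h ▸ isAlgebraic_zero)
  have hnt : ∃ x : F, x ≠ 0 ∧ pullVal (F := F) w γ x ≠ 1 := by
    refine ⟨t, ht0, ?_⟩
    rw [pullVal_apply, ht, hw, ← WithZero.exp_zero]
    intro h
    have := WithZero.exp_injective h
    omega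
  obtain ⟨e, he, h⟩ := exists_mul_ord_eq_of_valuation' v (pullVal (F := F) w γ) hγ hnt
  exact ⟨γ, e, he, h⟩

/-- `F` is a function field over `K`, witnessed by `t`. -/
theorem isFunctionFieldOver_of_galois_datum
    (t : F) (httr : Transcendental K t)
    (hfin : ∃ Γ' : Subgroup Γ, Γ'.FiniteIndex ∧ ∀ g ∈ Γ', ∀ x : L, g • x = x)
    (ht : ∀ g : Γ, g • algebraMap F L t = algebraMap F L t)
    (hfix : ∀ x : L, (∀ g : Γ, g • x = x) →
      x ∈ IntermediateField.adjoin K {algebraMap F L t}) :
    Fermat.Agent.S24Diff.IsFunctionFieldOver K F t := by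
  haveI : Finite (imageGroup Γ L) := finite_imageGroup hfin
  have hG : IsGaloisGroup (imageGroup Γ L) K⟮t⟯ L := isGaloisGroup_imageGroup t ht hfix
  have hGF : IsGaloisGroup (fixF Γ L F) F L := IsGaloisGroup.of_isScalarTower _ K⟮t⟯ L F
  haveI : FiniteDimensional K⟮t⟯ L := hG.finiteDimensional
  haveI : FiniteDimensional F L := hGF.finiteDimensional
  exact ⟨httr, FiniteDimensional.left K⟮t⟯ F L⟩

/-- (G) Every place of `F` comes from a point of the `j`-line. -/
theorem exists_point_of_place'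
    (j : F) (hjtr : Transcendental K j)
    (hfin : ∃ Γ' : Subgroup Γ, Γ'.FiniteIndex ∧ ∀ g ∈ Γ', ∀ x : L, g • x = x)
    (hj : ∀ g : Γ, g • algebraMap F L j = algebraMap F L j)
    (hfix : ∀ x : L, (∀ g : Γ, g • x = x) →
      x ∈ IntermediateField.adjoin K {algebraMap F L j})
    (w : K → Valuation L (WithZero (Multiplicative ℤ))) (s : K → ℕ)
    (hwK : ∀ c (a : K), a ≠ 0 → w c (algebraMap K L a) = 1)
    (hs : ∀ c, 0 < s c)
    (hw : ∀ c, w c (algebraMap F L (j - algebraMap K F c)) = WithZero.exp (-(s c : ℤ)))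
    (winf : Valuation L (WithZero (Multiplicative ℤ))) (sinf : ℕ)
    (hwinfK : ∀ a : K, a ≠ 0 → winf (algebraMap K L a) = 1)
    (hsinf : 0 < sinf)
    (hwinf : winf (algebraMap F L j) = WithZero.exp (sinf : ℤ))
    (v : Place K F) :
    (∃ (c : K) (γ : Γ) (e : ℕ), 0 < v.ord (j - algebraMap K F c) ∧ 0 < e ∧
      ∀ x : F, x ≠ 0 → -WithZero.log (w c (γ • algebraMap F L x)) = (e : ℤ) * v.ord x) ∨
    (∃ (γ : Γ) (e : ℕ), v.ord j < 0 ∧ 0 < e ∧
      ∀ x : F, x ≠ 0 → -WithZero.log (winf (γ • algebraMap F L x)) = (e : ℤ) * v.ord x) := by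
  have hff := isFunctionFieldOver_of_galois_datum j hjtr hfin hj hfix
  have hjK : j ∉ Set.range (algebraMap K F) := by
    rintro ⟨a, rfl⟩
    exact hjtr (isAlgebraic_algebraMap (R := K) (A := F) a)
  rcases Fermat.Agent.S24Res.exists_ord_sub_pos_or_neg hff v hjK with ⟨c, hc⟩ | hneg
  · left
    obtain ⟨γ, e, he, h⟩ := exists_smul_ord_eq_of_place' (j - algebraMap K F c)
      (Fermat.Agent.S24Glue.transcendental_sub_const hjtr c) hfin
      (Fermat.Agent.S24Glue.smul_algebraMap_sub hj c)
      (fun x hx => by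
        have := hfix x hx
        rw [map_sub, ← IsScalarTower.algebraMap_apply K F L,
          Fermat.Agent.S24Glue.adjoin_sub_const_eq]
        exact this)
      (w c) (s c) (hwK c) (hs c) (hw c) v hc
    exact ⟨c, γ, e, hc, he, h⟩
  · right
    have hpos : 0 < v.ord j⁻¹ := by
      rw [Place.ord_inv]
      omega
    obtain ⟨γ, e, he, h⟩ := exists_smul_ord_eq_of_place' j⁻¹
      (Fermat.Agent.S24Glue.transcendental_inv' hjtr) hfin
      (Fermat.Agent.S24Glue.smul_algebraMap_inv hj)
      (fun x hx => by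
        have := hfix x hx
        rw [map_inv₀, Fermat.Agent.S24Glue.adjoin_inv_eq']
        exact this)
      winf sinf hwinfK hsinf
      (by rw [map_inv₀, map_inv₀, hwinf, ← WithZero.exp_neg]) v hpos
    exact ⟨γ, e, hneg, he, h⟩

end Fermat.Agent.F3Places
end
end MergeWrap_F3_Dict_PlacesGlobal

section MergeWrap_F3_Dict_Ramification -- from F3/Dict/Ramification.lean

set_option autoImplicit false
set_option linter.unusedSectionVars false
set_option linter.style.haveILetI false

noncomputable section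
open IntermediateField Polynomial AlgebraicCurve IsDedekindDomain
open scoped IntermediateField.algebraAdjoinAdjoin Pointwise

namespace Fermat.Agent.F3Ram

/-! ### group theory: counting the powers of `x` in a subgroup -/

open Classical in
theorem card_zpowers_subgroupOf {G : Type*} [Group G] (x : G) (s : ℕ) (hs : 0 < s)
    (hord : orderOf x = s) (H' : Subgroup G) :
    Nat.card ↥((Subgroup.zpowers x).subgroupOf H') =
      ((Finset.range s).filter (fun k => x ^ k ∈ H')).card := by
  rw [← Nat.card_eq_finsetCard]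
  symm
  let f : ↥((Finset.range s).filter (fun k => x ^ k ∈ H')) → ↥((Subgroup.zpowers x).subgroupOf H') :=
    fun k => ⟨⟨x ^ (k : ℕ), (Finset.mem_filter.mp k.2).2⟩, ⟨(k : ℕ), by simp⟩⟩
  refine Nat.card_eq_of_bijective f ⟨?_, ?_⟩
  · rintro ⟨k, hk⟩ ⟨l, hl⟩ h
    have h1 : x ^ k = x ^ l := congrArg (fun y : ↥((Subgroup.zpowers x).subgroupOf H') => ((y : H') : G)) h
    have hk' : k < orderOf x := by rw [hord]; exact Finset.mem_range.mp (Finset.mem_filter.mp hk).1
    have hl' : l < orderOf x := by rw [hord]; exact Finset.mem_range.mp (Finset.mem_filter.mp hl).1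
    apply Subtype.ext
    exact pow_injOn_Iio_orderOf hk' hl' h1
  · rintro ⟨⟨y, hyH⟩, hy⟩
    obtain ⟨m, hm⟩ : ∃ m : ℤ, x ^ m = y := hy
    have hspos : (0 : ℤ) < (s : ℤ) := by exact_mod_cast hs
    have h0 : 0 ≤ m % (s : ℤ) := Int.emod_nonneg _ hspos.ne'
    have h1 : m % (s : ℤ) < s := Int.emod_lt_of_pos _ hspos
    have hpow : x ^ (m % (s : ℤ)).toNat = y := by
      rw [← zpow_natCast, Int.toNat_of_nonneg h0, ← hord, zpow_mod_orderOf, hm]
    refine ⟨⟨(m % (s : ℤ)).toNat, ?_⟩, ?_⟩
    · rw [Finset.mem_filter, Finset.mem_range]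
      refine ⟨by omega, ?_⟩
      rw [hpow]; exact hyH
    · apply Subtype.ext; apply Subtype.ext
      exact hpow

theorem stabilizer_subgroup_eq {G X : Type*} [Group G] [MulAction G X] (H' : Subgroup G) (x : X) :
    MulAction.stabilizer H' x = (MulAction.stabilizer G x).subgroupOf H' := by
  ext h
  rw [MulAction.mem_stabilizer_iff, Subgroup.mem_subgroupOf, MulAction.mem_stabilizer_iff]
  rfl


section Tower

variable {K A B C G : Type*} [Field K] [IsAlgClosed K] [CharZero K]
  [CommRing A] [CommRing B] [CommRing C] [Algebra K A] [Algebra A B] [Algebra B C] [Algebra A C]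
  [IsScalarTower A B C] [IsDomain A] [IsDomain B] [IsDomain C]
  [Module.Finite A C] [Module.Flat A C] [Module.Finite B C] [Module.Flat B C]
  [Group G] [Finite G] [MulSemiringAction G C] [IsGaloisGroup G A C]

/-- the decomposition group over the base has `e(Q/p)` elements. -/
theorem card_stabilizer_eq_ramificationIdx (p : Ideal A) [p.IsMaximal]
    (hpK : Function.Surjective ((Ideal.Quotient.mk p).comp (algebraMap K A)))
    (Q : Ideal C) [Q.IsMaximal] [Q.LiesOver p] :
    Nat.card (MulAction.stabilizer G Q) = Q.ramificationIdx A := by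
  have : CharZero p.ResidueField := by
    have : Function.Injective ((algebraMap A p.ResidueField).comp (algebraMap K A)) :=
      RingHom.injective _
    exact charZero_of_injective_ringHom this
  have h1 := Ideal.card_stabilizer_eq (G := G) p Q
  rw [Ideal.ramificationIdxIn_eq_ramificationIdx p Q G, Ideal.inertiaDegIn_eq_inertiaDeg p Q G,
    Fermat.Agent.S24Dec.inertiaDeg_eq_one_of_isAlgClosed (K := K) p hpK Q, mul_one] at h1
  exact h1

/-- the decomposition group over the intermediate ring has `e(Q/P)` elements. -/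
theorem card_stabilizer_subgroup_eq_ramificationIdx (H' : Subgroup G) [IsGaloisGroup H' B C]
    (p : Ideal A) [p.IsMaximal]
    (hpK : Function.Surjective ((Ideal.Quotient.mk p).comp (algebraMap K A)))
    (P : Ideal B) [P.IsMaximal] [P.LiesOver p]
    (Q : Ideal C) [Q.IsMaximal] [Q.LiesOver p] [Q.LiesOver P] :
    Nat.card (MulAction.stabilizer H' Q) = Q.ramificationIdx B := by
  have hinj : Function.Injective
      ((algebraMap B P.ResidueField).comp ((algebraMap A B).comp (algebraMap K A))) :=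
    RingHom.injective _
  have : CharZero P.ResidueField := charZero_of_injective_ringHom hinj
  have h1 := Ideal.card_stabilizer_eq (G := H') P Q
  have hf : Q.inertiaDeg A = 1 :=
    Fermat.Agent.S24Dec.inertiaDeg_eq_one_of_isAlgClosed (K := K) p hpK Q
  have hft : Q.inertiaDeg A = P.inertiaDeg A * Q.inertiaDeg B := Ideal.inertiaDeg_tower P Q
  have hfB : Q.inertiaDeg B = 1 := by
    rw [hf] at hft
    exact Nat.eq_one_of_mul_eq_one_left hft.symm
  rw [Ideal.ramificationIdxIn_eq_ramificationIdx P Q H', Ideal.inertiaDegIn_eq_inertiaDeg P Q H',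
    hfB, mul_one] at h1
  exact h1

theorem ramificationIdx_tower_eq (P : Ideal B) (Q : Ideal C) [Q.LiesOver P] :
    Q.ramificationIdx A = P.ramificationIdx A * Q.ramificationIdx B :=
  Ideal.ramificationIdx_tower P Q

end Tower


section Ord

variable {K F : Type*} [Field K] [Field F] [Algebra K F]
variable {B : Type*} [CommRing B] [IsDedekindDomain B] [Algebra B F] [IsFractionRing B F]
variable [Algebra K B] [IsScalarTower K B F]

/-- membership in a power of `P` in terms of `ord`. -/
theorem mem_pow_iff_le_ord (P : HeightOneSpectrum B) (b : B) (hb : b ≠ 0) (n : ℕ) :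
    b ∈ P.asIdeal ^ n ↔
      (n : ℤ) ≤ (Place.ofHeightOneSpectrum (K := K) (F := F) P).ord (algebraMap B F b) := by
  rw [← HeightOneSpectrum.intValuation_le_pow_iff_mem,
    Fermat.Agent.S24Bridge.ord_ofHeightOneSpectrum, HeightOneSpectrum.valuation_of_algebraMap]
  have h0 : P.intValuation b ≠ 0 := P.intValuation_ne_zero b hb
  obtain ⟨m, hm⟩ : ∃ m : ℤ, P.intValuation b = WithZero.exp m :=
    ⟨WithZero.log (P.intValuation b), (WithZero.exp_log h0).symm⟩
  rw [hm, WithZero.log_exp, WithZero.exp_le_exp]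
  omega

/-- the ramification index of `P` over a principal prime `(a)` is `ord_P a`. -/
theorem ramificationIdx_eq_ord {A : Type*} [CommRing A] [Algebra A B]
    (P : HeightOneSpectrum B) (a : A) [P.asIdeal.LiesOver (Ideal.span {a})]
    (ha : algebraMap A B a ≠ 0) :
    (P.asIdeal.ramificationIdx A : ℤ) =
      (Place.ofHeightOneSpectrum (K := K) (F := F) P).ord (algebraMap B F (algebraMap A B a)) := by
  have hmap : (Ideal.span {a}).map (algebraMap A B) = Ideal.span {algebraMap A B a} := by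
    rw [Ideal.map_span, Set.image_singleton]
  have hne : (Ideal.span {a}).map (algebraMap A B) ≠ ⊥ := by
    rw [hmap, Ne, Ideal.span_singleton_eq_bot]
    exact ha
  have := P.isPrime
  rw [← Ideal.ramificationIdx'_eq_ramificationIdx' (Ideal.span {a}) P.asIdeal hne]
  set m := (Place.ofHeightOneSpectrum (K := K) (F := F) P).ord
    (algebraMap B F (algebraMap A B a)) with hm
  have hmem : algebraMap A B a ∈ P.asIdeal := by
    have h1 : a ∈ P.asIdeal.under A := by
      rw [← Ideal.over_def P.asIdeal (Ideal.span {a})]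
      exact Ideal.subset_span rfl
    exact h1
  have hpos : 0 < m :=
    (Fermat.Agent.S24Bridge.mem_asIdeal_iff_ord_pos (K := K) (F := F) P _ ha).mp hmem
  have hspec : (Ideal.span {a}).ramificationIdx' P.asIdeal = m.toNat := by
    apply Ideal.ramificationIdx'_spec
    · rw [hmap, Ideal.span_singleton_le_iff_mem, mem_pow_iff_le_ord (K := K) (F := F) P _ ha]
      rw [← hm]; omega
    · rw [hmap, Ideal.span_singleton_le_iff_mem, mem_pow_iff_le_ord (K := K) (F := F) P _ ha]
      rw [← hm]; push_cast; omega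
  rw [hspec]
  omega

end Ord


section Core

open Fermat.Agent.S24Gal Fermat.Agent.S24Fib

variable {K F L Γ : Type*} [Field K] [IsAlgClosed K] [CharZero K]
    [Field F] [Algebra K F] [Field L] [Algebra K L] [Algebra F L] [IsScalarTower K F L]
    [Group Γ] [MulSemiringAction Γ L] [SMulCommClass Γ K L]

open Classical in
set_option maxHeartbeats 1000000 in
set_option synthInstance.maxHeartbeats 200000 in
/-- (F2) for `γ = 1`. -/
theorem ramification_eq_card_one
    (t : F) (httr : Transcendental K t)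
    (hfin : ∃ Γ' : Subgroup Γ, Γ'.FiniteIndex ∧ ∀ g ∈ Γ', ∀ x : L, g • x = x)
    (ht : ∀ g : Γ, g • algebraMap F L t = algebraMap F L t)
    (hfix : ∀ x : L, (∀ g : Γ, g • x = x) →
      x ∈ IntermediateField.adjoin K {algebraMap F L t})
    (H : Subgroup Γ)
    (hH : ∀ g : Γ, g ∈ H ↔ ∀ x : F, g • algebraMap F L x = algebraMap F L x)
    (w : Valuation L (WithZero (Multiplicative ℤ))) (s : ℕ) (g : Γ)
    (hwK : ∀ a : K, a ≠ 0 → w (algebraMap K L a) = 1)
    (hs : 0 < s)
    (hw : w (algebraMap F L t) = WithZero.exp (-(s : ℤ)))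
    (hg : ∀ x, w (g • x) = w x)
    (hgs : ∀ k : ℤ, (∀ x : L, (g ^ k) • x = x) ↔ (s : ℤ) ∣ k)
    (v : Place K F) (e : ℕ)
    (hve : ∀ x : F, x ≠ 0 → -WithZero.log (w (algebraMap F L x)) = (e : ℤ) * v.ord x) :
    e = ((Finset.range s).filter (fun k => g ^ k ∈ H)).card := by
  -- groups
  haveI : Finite (imageGroup Γ L) := finite_imageGroup hfin
  have hG : IsGaloisGroup (imageGroup Γ L) K⟮t⟯ L := isGaloisGroup_imageGroup t ht hfix
  have hGF : IsGaloisGroup (fixF Γ L F) F L := IsGaloisGroup.of_isScalarTower _ K⟮t⟯ L F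
  haveI : FiniteDimensional K⟮t⟯ L := hG.finiteDimensional
  haveI : FiniteDimensional F L := hGF.finiteDimensional
  haveI : FiniteDimensional K⟮t⟯ F := FiniteDimensional.left K⟮t⟯ F L
  -- rings
  haveI := isDedekindDomain_adjoin httr
  haveI := isDedekindDomain_integralClosure F httr
  haveI := isDedekindDomain_integralClosure L httr
  haveI := isFractionRing_integralClosure (K := K) F t
  haveI := isFractionRing_integralClosure (K := K) L t
  haveI := finite_integralClosure L httr
  haveI := flat_integralClosure L httr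
  -- (I0)
  haveI hcommK : SMulCommClass (imageGroup Γ L) K⟮t⟯ L := hG.commutes
  haveI hcommA : SMulCommClass (imageGroup Γ L) (Algebra.adjoin K {t}) L :=
    ⟨fun σ a x => by
      rw [← IsScalarTower.algebraMap_smul K⟮t⟯ a x, smul_comm,
        IsScalarTower.algebraMap_smul K⟮t⟯ a (σ • x)]⟩
  -- (I1)
  haveI hI1 : IsGaloisGroup (imageGroup Γ L) (Algebra.adjoin K {t})
      (integralClosure (Algebra.adjoin K {t}) L) :=
    IsGaloisGroup.of_isFractionRing (imageGroup Γ L) (Algebra.adjoin K {t})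
      (integralClosure (Algebra.adjoin K {t}) L) K⟮t⟯ L
  -- (I2)
  letI := algebraBFBL (K := K) (L := L) t
  haveI := isScalarTower_A_BF_BL (K := K) (L := L) t
  haveI := isScalarTower_BF_BL_L (K := K) (L := L) t
  haveI := faithfulSMul_BF_BL (K := K) (L := L) t
  haveI : Algebra.IsIntegral (Algebra.adjoin K {t}) (integralClosure (Algebra.adjoin K {t}) L) :=
    inferInstance
  haveI : Algebra.IsIntegral (integralClosure (Algebra.adjoin K {t}) F)
      (integralClosure (Algebra.adjoin K {t}) L) :=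
    Algebra.IsIntegral.tower_top (Algebra.adjoin K {t})
  haveI hI2 : IsGaloisGroup (fixF Γ L F) (integralClosure (Algebra.adjoin K {t}) F)
      (integralClosure (Algebra.adjoin K {t}) L) :=
    IsGaloisGroup.of_isFractionRing (fixF Γ L F) (integralClosure (Algebra.adjoin K {t}) F)
      (integralClosure (Algebra.adjoin K {t}) L) F L
  -- further instances for the upper layer `B_F ⊆ B_L`
  haveI hfinBF : Module.Finite (integralClosure (Algebra.adjoin K {t}) F)
      (integralClosure (Algebra.adjoin K {t}) L) :=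
    Module.Finite.of_restrictScalars_finite (Algebra.adjoin K {t}) _ _
  haveI htfBF : Module.IsTorsionFree (integralClosure (Algebra.adjoin K {t}) F)
      (integralClosure (Algebra.adjoin K {t}) L) := by
    rw [Module.isTorsionFree_iff_algebraMap_injective]
    exact FaithfulSMul.algebraMap_injective _ _
  haveI hflatBF : Module.Flat (integralClosure (Algebra.adjoin K {t}) F)
      (integralClosure (Algebra.adjoin K {t}) L) := inferInstance
  -- the valuation on `B_L`
  have hwt1 : w (algebraMap F L t) ≤ 1 := by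
    rw [hw, ← WithZero.exp_zero, WithZero.exp_le_exp]
    omega
  let w' : Valuation (integralClosure (Algebra.adjoin K {t}) L) (WithZero (Multiplicative ℤ)) :=
    w.comap (algebraMap (integralClosure (Algebra.adjoin K {t}) L) L)
  have hw' : ∀ b, w' b ≤ 1 := fun b =>
    valuation_le_one_of_isIntegral w (valuation_adjoin_le_one w hwK t hwt1) b.2
  have hw't : w' (algebraMap (Algebra.adjoin K {t}) (integralClosure (Algebra.adjoin K {t}) L)
      (tA K t)) = WithZero.exp (-(s : ℤ)) := hw
  -- the element of `G` induced by `g`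
  have hg' : ∀ b : integralClosure (Algebra.adjoin K {t}) L,
      w' ((toImage Γ L g) • b) = w' b := fun b => hg (b : L)
  have hdvd : ∀ k : ℕ, (toImage Γ L g) ^ k = 1 ↔ s ∣ k := by
    intro k
    have h1 := hgs (k : ℤ)
    rw [Int.natCast_dvd_natCast, zpow_natCast] at h1
    rw [← h1, ← map_pow]
    constructor
    · intro h x
      rw [← toImage_smul (g ^ k) x, h, one_smul]
    · intro h
      apply Subtype.ext
      ext x
      exact h x
  have hordeq : orderOf (toImage Γ L g) = s :=
    Nat.dvd_antisymm (orderOf_dvd_of_pow_eq_one ((hdvd s).mpr dvd_rfl))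
      ((hdvd _).mp (pow_orderOf_eq_one _))
  have hord : s ≤ Nat.card (Subgroup.zpowers (toImage Γ L g)) := by
    rw [Nat.card_zpowers, hordeq]
  -- the decomposition group
  have hstab := Fermat.Agent.S24Dec.stabilizer_centre_eq_zpowers (K := K)
    (G := imageGroup Γ L) w' hw' (tA K t) (isMaximal_span_tA httr) (surjective_mk_span_tA t)
    s hs hw't (toImage Γ L g) hg' hord
  have hwt2 : w' (algebraMap (Algebra.adjoin K {t}) (integralClosure (Algebra.adjoin K {t}) L)
      (tA K t)) < 1 := by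
    rw [hw't, ← WithZero.exp_zero, WithZero.exp_lt_exp]
    omega
  haveI hQover : (Fermat.Agent.S24Dec.centre w' hw').LiesOver (Ideal.span {tA K t}) :=
    Fermat.Agent.S24Dec.centre_liesOver w' hw' (tA K t) (isMaximal_span_tA httr) hwt2
  haveI hpmax : (Ideal.span {tA K t}).IsMaximal := isMaximal_span_tA httr
  have ht0 : t ≠ 0 := fun h => httr (h ▸ isAlgebraic_zero)
  have htL0 : algebraMap (Algebra.adjoin K {t}) (integralClosure (Algebra.adjoin K {t}) L)
      (tA K t) ≠ 0 := by
    intro h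
    rw [h, map_zero] at hw't
    exact WithZero.coe_ne_zero hw't.symm
  have hQne : Fermat.Agent.S24Dec.centre w' hw' ≠ ⊥ := by
    intro h
    have hmem : algebraMap (Algebra.adjoin K {t}) (integralClosure (Algebra.adjoin K {t}) L)
        (tA K t) ∈ Fermat.Agent.S24Dec.centre w' hw' := hwt2
    rw [h] at hmem
    exact htL0 hmem
  haveI hQmax : (Fermat.Agent.S24Dec.centre w' hw').IsMaximal :=
    Ideal.IsPrime.isMaximal inferInstance hQne
  -- the place `v` lies above `t = 0`
  have hvt : (s : ℤ) = (e : ℤ) * v.ord t := by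
    have h := hve t ht0
    rw [hw, WithZero.log_exp] at h
    simpa using h
  have hspos : (0 : ℤ) < (s : ℤ) := by exact_mod_cast hs
  have hvpos : 0 < v.ord t := by
    by_contra hcon
    rw [not_lt] at hcon
    have : (e : ℤ) * v.ord t ≤ 0 := mul_nonpos_of_nonneg_of_nonpos (by positivity) hcon
    omega
  -- the prime `P` of `B_F` attached to `v`
  have htv : t ∈ v.toValuationSubring := Fermat.Agent.S24Res.mem_of_ord_nonneg v hvpos.le
  have hA := algebraMap_adjoin_mem v htv
  have hB : ∀ b : integralClosure (Algebra.adjoin K {t}) F,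
      algebraMap (integralClosure (Algebra.adjoin K {t}) F) F b ∈ v.toValuationSubring := fun b =>
    Fermat.Agent.S24Bridge.mem_of_isIntegral v hA b.2
  obtain ⟨P, hP⟩ := Fermat.Agent.S24Bridge.exists_eq_ofHeightOneSpectrum v hB
  haveI hPprime := P.isPrime
  haveI hPmax : P.asIdeal.IsMaximal := P.isMaximal
  -- `Q` lies over `P`
  haveI hQP : (Fermat.Agent.S24Dec.centre w' hw').LiesOver P.asIdeal := by
    constructor
    ext b
    rw [Ideal.mem_comap, Fermat.Agent.S24Dec.mem_centre]
    rcases eq_or_ne b 0 with rfl | hb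
    · simp
    rw [Fermat.Agent.S24Bridge.mem_asIdeal_iff_ord_pos (K := K) (F := F) P b hb, ← hP]
    have hbF : algebraMap (integralClosure (Algebra.adjoin K {t}) F) F b ≠ 0 := by
      intro h
      exact hb ((IsFractionRing.injective _ F) (by rw [h, map_zero]))
    have h := hve _ hbF
    have hwb : w' (algebraMap (integralClosure (Algebra.adjoin K {t}) F)
        (integralClosure (Algebra.adjoin K {t}) L) b) =
        w (algebraMap F L (algebraMap (integralClosure (Algebra.adjoin K {t}) F) F b)) := rfl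
    rw [hwb]
    have hne : w (algebraMap F L (algebraMap (integralClosure (Algebra.adjoin K {t}) F) F b)) ≠ 0 := by
      rw [Ne, map_eq_zero, map_eq_zero]
      exact hbF
    obtain ⟨m, hm⟩ : ∃ m : ℤ,
        w (algebraMap F L (algebraMap (integralClosure (Algebra.adjoin K {t}) F) F b)) =
          WithZero.exp m := ⟨_, (WithZero.exp_log hne).symm⟩
    rw [hm, WithZero.log_exp] at h
    rw [hm, ← WithZero.exp_zero, WithZero.exp_lt_exp]
    have hepos : (0 : ℤ) < (e : ℤ) := by
      rcases Nat.eq_zero_or_pos e with h0 | h0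
      · rw [h0] at hvt; simp at hvt; omega
      · exact_mod_cast h0
    constructor
    · intro hpos
      have : 0 < (e : ℤ) * v.ord (algebraMap (integralClosure (Algebra.adjoin K {t}) F) F b) :=
        mul_pos hepos hpos
      omega
    · intro hlt
      by_contra hcon
      rw [not_lt] at hcon
      have : (e : ℤ) * v.ord (algebraMap (integralClosure (Algebra.adjoin K {t}) F) F b) ≤ 0 :=
        mul_nonpos_of_nonneg_of_nonpos hepos.le hcon
      omega
  haveI hPp : P.asIdeal.LiesOver (Ideal.span {tA K t}) :=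
    Ideal.LiesOver.tower_bot (Fermat.Agent.S24Dec.centre w' hw') P.asIdeal (Ideal.span {tA K t})
  -- the three ramification indices
  have h1 : Nat.card (MulAction.stabilizer (imageGroup Γ L) (Fermat.Agent.S24Dec.centre w' hw')) =
      (Fermat.Agent.S24Dec.centre w' hw').ramificationIdx (Algebra.adjoin K {t}) :=
    card_stabilizer_eq_ramificationIdx (K := K) (Ideal.span {tA K t}) (surjective_mk_span_tA t) _
  have h2 : Nat.card (MulAction.stabilizer (fixF Γ L F) (Fermat.Agent.S24Dec.centre w' hw')) =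
      (Fermat.Agent.S24Dec.centre w' hw').ramificationIdx
        (integralClosure (Algebra.adjoin K {t}) F) :=
    card_stabilizer_subgroup_eq_ramificationIdx (K := K) (A := Algebra.adjoin K {t})
      (fixF Γ L F) (Ideal.span {tA K t}) (surjective_mk_span_tA t) P.asIdeal _
  have h3 := ramificationIdx_tower_eq (A := Algebra.adjoin K {t}) P.asIdeal
    (Fermat.Agent.S24Dec.centre w' hw')
  have htB0 : algebraMap (Algebra.adjoin K {t}) (integralClosure (Algebra.adjoin K {t}) F)
      (tA K t) ≠ 0 := by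
    intro h
    apply ht0
    have h' := congrArg (algebraMap (integralClosure (Algebra.adjoin K {t}) F) F) h
    rw [map_zero] at h'
    exact h'
  have h4 := ramificationIdx_eq_ord (K := K) (F := F) P (tA K t) htB0
  rw [← hP] at h4
  have htB : algebraMap (integralClosure (Algebra.adjoin K {t}) F) F
      (algebraMap (Algebra.adjoin K {t}) (integralClosure (Algebra.adjoin K {t}) F) (tA K t))
        = t := rfl
  rw [htB] at h4
  -- the count
  have h5 : Nat.card (MulAction.stabilizer (fixF Γ L F) (Fermat.Agent.S24Dec.centre w' hw')) =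
      ((Finset.range s).filter (fun k => g ^ k ∈ H)).card := by
    rw [stabilizer_subgroup_eq, hstab, card_zpowers_subgroupOf (toImage Γ L g) s hs hordeq]
    congr 1
    ext k
    simp only [Finset.mem_filter, Finset.mem_range]
    rw [← map_pow, ← Subgroup.mem_comap, comap_fixF H hH]
  have h6 : Nat.card (MulAction.stabilizer (imageGroup Γ L) (Fermat.Agent.S24Dec.centre w' hw'))
      = s := by
    rw [hstab, Nat.card_zpowers, hordeq]
  -- arithmetic
  rw [h6] at h1
  rw [← h5, h2]
  have h7 : (s : ℤ) = (P.asIdeal.ramificationIdx (Algebra.adjoin K {t}) : ℤ) *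
      ((Fermat.Agent.S24Dec.centre w' hw').ramificationIdx
        (integralClosure (Algebra.adjoin K {t}) F) : ℤ) := by
    rw [h1, h3]; push_cast; rfl
  rw [h4, hvt, mul_comm] at h7
  have h8 := mul_left_cancel₀ hvpos.ne' h7
  exact_mod_cast h8

theorem conj_inv_pow_eq {G : Type*} [Group G] (γ g : G) (k : ℕ) :
    (γ⁻¹ * g * γ) ^ k = γ⁻¹ * g ^ k * γ := by
  have h := conj_pow (a := γ⁻¹) (b := g) (i := k)
  rw [inv_inv] at h
  exact h

theorem conj_inv_zpow_eq {G : Type*} [Group G] (γ g : G) (k : ℤ) :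
    (γ⁻¹ * g * γ) ^ k = γ⁻¹ * g ^ k * γ := by
  have h := conj_zpow (a := γ⁻¹) (b := g) (i := k)
  rw [inv_inv] at h
  exact h

open Classical in
/-- (F2) The factor `e` is the number of `k mod s` with `γ⁻¹ g^k γ ∈ H`
(statement = `Fermat.Agent.F3Places.ramification_eq_card` of `PlacesAbstract.lean`). -/
theorem ramification_eq_card
    (t : F) (httr : Transcendental K t)
    (hfin : ∃ Γ' : Subgroup Γ, Γ'.FiniteIndex ∧ ∀ g ∈ Γ', ∀ x : L, g • x = x)
    (ht : ∀ g : Γ, g • algebraMap F L t = algebraMap F L t)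
    (hfix : ∀ x : L, (∀ g : Γ, g • x = x) →
      x ∈ IntermediateField.adjoin K {algebraMap F L t})
    (H : Subgroup Γ)
    (hH : ∀ g : Γ, g ∈ H ↔ ∀ x : F, g • algebraMap F L x = algebraMap F L x)
    (w : Valuation L (WithZero (Multiplicative ℤ))) (s : ℕ) (g : Γ)
    (hwK : ∀ a : K, a ≠ 0 → w (algebraMap K L a) = 1)
    (hs : 0 < s)
    (hw : w (algebraMap F L t) = WithZero.exp (-(s : ℤ)))
    (hg : ∀ x, w (g • x) = w x)
    (hgs : ∀ k : ℤ, (∀ x : L, (g ^ k) • x = x) ↔ (s : ℤ) ∣ k)
    (v : Place K F) (γ : Γ) (e : ℕ)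
    (hve : ∀ x : F, x ≠ 0 → -WithZero.log (w (γ • algebraMap F L x)) = (e : ℤ) * v.ord x) :
    e = ((Finset.range s).filter (fun k => γ⁻¹ * g ^ k * γ ∈ H)).card := by
  let wγ : Valuation L (WithZero (Multiplicative ℤ)) :=
    w.comap (MulSemiringAction.toRingHom Γ L γ)
  have hwγ : ∀ x : L, wγ x = w (γ • x) := fun _ => rfl
  have h := ramification_eq_card_one (K := K) (F := F) (L := L) (Γ := Γ) t httr hfin ht hfix H hH
    wγ s (γ⁻¹ * g * γ)
    (fun a ha => by rw [hwγ, smul_algebraMap]; exact hwK a ha)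
    hs
    (by rw [hwγ, ht γ]; exact hw)
    (fun x => by
      rw [hwγ, hwγ, ← mul_smul, mul_assoc, mul_inv_cancel_left, mul_smul]
      exact hg _)
    (fun k => by
      rw [← hgs k, conj_inv_zpow_eq]
      constructor
      · intro h y
        have h1 := h (γ⁻¹ • y)
        rw [← mul_smul, mul_inv_cancel_right, mul_smul] at h1
        exact smul_left_cancel _ h1
      · intro h x
        rw [mul_smul, mul_smul, h, inv_smul_smul])
    v e (fun x hx => by rw [hwγ]; exact hve x hx)
  rw [h]
  congr 1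
  apply Finset.filter_congr
  intro k _
  rw [conj_inv_pow_eq]

end Core

end Fermat.Agent.F3Ram
end
end MergeWrap_F3_Dict_Ramification

section MergeWrap_F3_Dict_PlacesAbstract -- from F3/Dict/PlacesAbstract.lean

set_option autoImplicit false

open AlgebraicCurve IntermediateField

namespace Fermat.Agent.F3Places

/-- (V2) A `ℤ`-valued valuation `u` of `F` which is `≤ 1` on the valuation ring of the place `v`
and not trivial is `exp (- e · ord_v)` for a positive integer `e`. -/
theorem exists_mul_ord_eq_of_valuation {K F : Type*} [Field K] [Field F] [Algebra K F]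
    (v : Place K F) (u : Valuation F (WithZero (Multiplicative ℤ)))
    (hle : ∀ x ∈ v.toValuationSubring, u x ≤ 1) (hnt : ∃ x : F, x ≠ 0 ∧ u x ≠ 1) :
    ∃ e : ℕ, 0 < e ∧ ∀ x : F, x ≠ 0 → -WithZero.log (u x) = (e : ℤ) * v.ord x :=
  exists_mul_ord_eq_of_valuation' v u hle hnt

variable {K F L Γ : Type*} [Field K] [IsAlgClosed K] [CharZero K]
    [Field F] [Algebra K F] [Field L] [Algebra K L] [Algebra F L] [IsScalarTower K F L]
    [Group Γ] [MulSemiringAction Γ L] [SMulCommClass Γ K L]

/-- (F1) Every place of `F` above `t = 0` is induced by a `Γ`-translate of `w`. -/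
theorem exists_smul_le_one_of_place
    (t : F) (httr : Transcendental K t)
    (hfin : ∃ Γ' : Subgroup Γ, Γ'.FiniteIndex ∧ ∀ g ∈ Γ', ∀ x : L, g • x = x)
    (ht : ∀ g : Γ, g • algebraMap F L t = algebraMap F L t)
    (hfix : ∀ x : L, (∀ g : Γ, g • x = x) →
      x ∈ IntermediateField.adjoin K {algebraMap F L t})
    (w : Valuation L (WithZero (Multiplicative ℤ))) (s : ℕ)
    (hwK : ∀ a : K, a ≠ 0 → w (algebraMap K L a) = 1)
    (hs : 0 < s)
    (hw : w (algebraMap F L t) = WithZero.exp (-(s : ℤ)))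
    (v : Place K F) (hv : 0 < v.ord t) :
    ∃ γ : Γ, ∀ x ∈ v.toValuationSubring, w (γ • algebraMap F L x) ≤ 1 :=
  exists_smul_le_one_of_place' t httr hfin ht hfix w s hwK hs hw v hv

/-- (F1) + (V2): every place of `F` above `t = 0` is `x ↦ w (γ • x)` up to a factor `e`. -/
theorem exists_smul_ord_eq_of_place
    (t : F) (httr : Transcendental K t)
    (hfin : ∃ Γ' : Subgroup Γ, Γ'.FiniteIndex ∧ ∀ g ∈ Γ', ∀ x : L, g • x = x)
    (ht : ∀ g : Γ, g • algebraMap F L t = algebraMap F L t)
    (hfix : ∀ x : L, (∀ g : Γ, g • x = x) →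
      x ∈ IntermediateField.adjoin K {algebraMap F L t})
    (w : Valuation L (WithZero (Multiplicative ℤ))) (s : ℕ)
    (hwK : ∀ a : K, a ≠ 0 → w (algebraMap K L a) = 1)
    (hs : 0 < s)
    (hw : w (algebraMap F L t) = WithZero.exp (-(s : ℤ)))
    (v : Place K F) (hv : 0 < v.ord t) :
    ∃ (γ : Γ) (e : ℕ), 0 < e ∧
      ∀ x : F, x ≠ 0 → -WithZero.log (w (γ • algebraMap F L x)) = (e : ℤ) * v.ord x :=
  exists_smul_ord_eq_of_place' t httr hfin ht hfix w s hwK hs hw v hv

open Classical in
/-- (F2) The factor `e` is the number of `k mod s` with `γ⁻¹ g^k γ ∈ H`. -/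
theorem ramification_eq_card
    (t : F) (httr : Transcendental K t)
    (hfin : ∃ Γ' : Subgroup Γ, Γ'.FiniteIndex ∧ ∀ g ∈ Γ', ∀ x : L, g • x = x)
    (ht : ∀ g : Γ, g • algebraMap F L t = algebraMap F L t)
    (hfix : ∀ x : L, (∀ g : Γ, g • x = x) →
      x ∈ IntermediateField.adjoin K {algebraMap F L t})
    (H : Subgroup Γ)
    (hH : ∀ g : Γ, g ∈ H ↔ ∀ x : F, g • algebraMap F L x = algebraMap F L x)
    (w : Valuation L (WithZero (Multiplicative ℤ))) (s : ℕ) (g : Γ)
    (hwK : ∀ a : K, a ≠ 0 → w (algebraMap K L a) = 1)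
    (hs : 0 < s)
    (hw : w (algebraMap F L t) = WithZero.exp (-(s : ℤ)))
    (hg : ∀ x, w (g • x) = w x)
    (hgs : ∀ k : ℤ, (∀ x : L, (g ^ k) • x = x) ↔ (s : ℤ) ∣ k)
    (v : Place K F) (γ : Γ) (e : ℕ)
    (hve : ∀ x : F, x ≠ 0 → -WithZero.log (w (γ • algebraMap F L x)) = (e : ℤ) * v.ord x) :
    e = ((Finset.range s).filter (fun k => γ⁻¹ * g ^ k * γ ∈ H)).card :=
  Fermat.Agent.F3Ram.ramification_eq_card t httr hfin ht hfix H hH w s g hwK hs hw hg hgs v γ e hve

/-- (G) Every place of `F` comes from a point of the `j`-line: the Galois datum of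
`Fermat.Agent.S24Glue.degree_canonical_of_galois_datum'`, conclusion = the dictionary. -/
theorem exists_point_of_place
    (j : F) (hjtr : Transcendental K j)
    (hfin : ∃ Γ' : Subgroup Γ, Γ'.FiniteIndex ∧ ∀ g ∈ Γ', ∀ x : L, g • x = x)
    (hj : ∀ g : Γ, g • algebraMap F L j = algebraMap F L j)
    (hfix : ∀ x : L, (∀ g : Γ, g • x = x) →
      x ∈ IntermediateField.adjoin K {algebraMap F L j})
    (w : K → Valuation L (WithZero (Multiplicative ℤ))) (s : K → ℕ)
    (hwK : ∀ c (a : K), a ≠ 0 → w c (algebraMap K L a) = 1)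
    (hs : ∀ c, 0 < s c)
    (hw : ∀ c, w c (algebraMap F L (j - algebraMap K F c)) = WithZero.exp (-(s c : ℤ)))
    (winf : Valuation L (WithZero (Multiplicative ℤ))) (sinf : ℕ)
    (hwinfK : ∀ a : K, a ≠ 0 → winf (algebraMap K L a) = 1)
    (hsinf : 0 < sinf)
    (hwinf : winf (algebraMap F L j) = WithZero.exp (sinf : ℤ))
    (v : Place K F) :
    (∃ (c : K) (γ : Γ) (e : ℕ), 0 < v.ord (j - algebraMap K F c) ∧ 0 < e ∧
      ∀ x : F, x ≠ 0 → -WithZero.log (w c (γ • algebraMap F L x)) = (e : ℤ) * v.ord x) ∨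
    (∃ (γ : Γ) (e : ℕ), v.ord j < 0 ∧ 0 < e ∧
      ∀ x : F, x ≠ 0 → -WithZero.log (winf (γ • algebraMap F L x)) = (e : ℤ) * v.ord x) :=
  exists_point_of_place' j hjtr hfin hj hfix w s hwK hs hw winf sinf hwinfK hsinf hwinf v

end Fermat.Agent.F3Places
end MergeWrap_F3_Dict_PlacesAbstract

section MergeWrap_F3_Dict_PlacesConv -- from F3/Dict/PlacesConv.lean

set_option autoImplicit false
set_option linter.style.haveILetI false
set_option linter.unusedSectionVars false

noncomputable section
open IntermediateField Polynomial AlgebraicCurve IsDedekindDomain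
open scoped IntermediateField.algebraAdjoinAdjoin Pointwise

namespace Fermat.Agent.F3Places
open Fermat.Agent.S24Gal Fermat.Agent.S24Fib

variable {K F L Γ : Type*} [Field K] [IsAlgClosed K] [CharZero K]
    [Field F] [Algebra K F] [Field L] [Algebra K L] [Algebra F L] [IsScalarTower K F L]
    [Group Γ] [MulSemiringAction Γ L] [SMulCommClass Γ K L]

set_option maxHeartbeats 1000000 in
set_option synthInstance.maxHeartbeats 400000 in
/-- (F1') Every `Γ`-translate of `w` induces a place of `F` above `t = 0`. -/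
theorem exists_place_of_smul
    (t : F) (httr : Transcendental K t)
    (hfin : ∃ Γ' : Subgroup Γ, Γ'.FiniteIndex ∧ ∀ g ∈ Γ', ∀ x : L, g • x = x)
    (ht : ∀ g : Γ, g • algebraMap F L t = algebraMap F L t)
    (hfix : ∀ x : L, (∀ g : Γ, g • x = x) →
      x ∈ IntermediateField.adjoin K {algebraMap F L t})
    (w : Valuation L (WithZero (Multiplicative ℤ))) (s : ℕ)
    (hwK : ∀ a : K, a ≠ 0 → w (algebraMap K L a) = 1)
    (hs : 0 < s)
    (hw : w (algebraMap F L t) = WithZero.exp (-(s : ℤ)))
    (γ : Γ) :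
    ∃ v : Place K F, 0 < v.ord t ∧ ∀ x ∈ v.toValuationSubring, w (γ • algebraMap F L x) ≤ 1 := by
  -- groups
  haveI : Finite (imageGroup Γ L) := finite_imageGroup hfin
  have hG : IsGaloisGroup (imageGroup Γ L) K⟮t⟯ L := isGaloisGroup_imageGroup t ht hfix
  have hGF : IsGaloisGroup (fixF Γ L F) F L := IsGaloisGroup.of_isScalarTower _ K⟮t⟯ L F
  haveI : FiniteDimensional K⟮t⟯ L := hG.finiteDimensional
  haveI : FiniteDimensional F L := hGF.finiteDimensional
  haveI : FiniteDimensional K⟮t⟯ F := FiniteDimensional.left K⟮t⟯ F L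
  -- rings
  haveI := isDedekindDomain_adjoin httr
  haveI := isDedekindDomain_integralClosure F httr
  haveI := isDedekindDomain_integralClosure L httr
  haveI := isFractionRing_integralClosure (K := K) F t
  haveI := isFractionRing_integralClosure (K := K) L t
  haveI := finite_integralClosure L httr
  haveI := flat_integralClosure L httr
  haveI hcommK : SMulCommClass (imageGroup Γ L) K⟮t⟯ L := hG.commutes
  haveI hcommA : SMulCommClass (imageGroup Γ L) (Algebra.adjoin K {t}) L :=
    ⟨fun σ a x => by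
      rw [← IsScalarTower.algebraMap_smul K⟮t⟯ a x, smul_comm,
        IsScalarTower.algebraMap_smul K⟮t⟯ a (σ • x)]⟩
  haveI hI1 : IsGaloisGroup (imageGroup Γ L) (Algebra.adjoin K {t})
      (integralClosure (Algebra.adjoin K {t}) L) :=
    IsGaloisGroup.of_isFractionRing (imageGroup Γ L) (Algebra.adjoin K {t})
      (integralClosure (Algebra.adjoin K {t}) L) K⟮t⟯ L
  letI := algebraBFBL (K := K) (L := L) t
  haveI := isScalarTower_A_BF_BL (K := K) (L := L) t
  haveI := isScalarTower_BF_BL_L (K := K) (L := L) t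
  haveI := faithfulSMul_BF_BL (K := K) (L := L) t
  haveI : Algebra.IsIntegral (Algebra.adjoin K {t}) (integralClosure (Algebra.adjoin K {t}) L) :=
    inferInstance
  haveI : Algebra.IsIntegral (integralClosure (Algebra.adjoin K {t}) F)
      (integralClosure (Algebra.adjoin K {t}) L) :=
    Algebra.IsIntegral.tower_top (Algebra.adjoin K {t})
  haveI hI2 : IsGaloisGroup (fixF Γ L F) (integralClosure (Algebra.adjoin K {t}) F)
      (integralClosure (Algebra.adjoin K {t}) L) :=
    IsGaloisGroup.of_isFractionRing (fixF Γ L F) (integralClosure (Algebra.adjoin K {t}) F)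
      (integralClosure (Algebra.adjoin K {t}) L) F L
  -- the valuation on `B_L`
  have hwt1 : w (algebraMap F L t) ≤ 1 := by
    rw [hw, ← WithZero.exp_zero, WithZero.exp_le_exp]
    omega
  let w' : Valuation (integralClosure (Algebra.adjoin K {t}) L) (WithZero (Multiplicative ℤ)) :=
    w.comap (algebraMap (integralClosure (Algebra.adjoin K {t}) L) L)
  have hw' : ∀ b, w' b ≤ 1 := fun b =>
    valuation_le_one_of_isIntegral w (valuation_adjoin_le_one w hwK t hwt1) b.2
  have hw't : w' (algebraMap (Algebra.adjoin K {t}) (integralClosure (Algebra.adjoin K {t}) L)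
      (tA K t)) = WithZero.exp (-(s : ℤ)) := hw
  have hwt2 : w' (algebraMap (Algebra.adjoin K {t}) (integralClosure (Algebra.adjoin K {t}) L)
      (tA K t)) < 1 := by
    rw [hw't, ← WithZero.exp_zero, WithZero.exp_lt_exp]
    omega
  haveI hQover : (Fermat.Agent.S24Dec.centre w' hw').LiesOver (Ideal.span {tA K t}) :=
    Fermat.Agent.S24Dec.centre_liesOver w' hw' (tA K t) (isMaximal_span_tA httr) hwt2
  -- the prime of `B_F` below `γ⁻¹ • Q₀`
  set Pp := Fermat.Agent.S24Orb.belowPrime (B := integralClosure (Algebra.adjoin K {t}) F)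
    (G := imageGroup Γ L) (Ideal.span {tA K t}) (Fermat.Agent.S24Dec.centre w' hw')
    (toImage Γ L γ) with hPp
  haveI hPprime : Pp.1.IsPrime := Pp.2.1
  haveI hPover : Pp.1.LiesOver (Ideal.span {tA K t}) := Pp.2.2
  obtain ⟨hne, hpos⟩ := exists_place_of_primesOver httr Pp.1
  have hPw : ∀ b : integralClosure (Algebra.adjoin K {t}) F,
      b ∈ Pp.1 ↔ w (γ • algebraMap F L (b : F)) < 1 := by
    intro b
    show b ∈ ((toImage Γ L γ)⁻¹ • Fermat.Agent.S24Dec.centre w' hw').under
      (integralClosure (Algebra.adjoin K {t}) F) ↔ _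
    rw [Ideal.under_def, Ideal.mem_comap, Ideal.mem_inv_pointwise_smul_iff,
      Fermat.Agent.S24Dec.mem_centre]
    rfl
  have hBw : ∀ b : integralClosure (Algebra.adjoin K {t}) F,
      w (γ • algebraMap F L (b : F)) ≤ 1 := by
    intro b
    exact hw' ((toImage Γ L γ) • (algebraMap (integralClosure (Algebra.adjoin K {t}) F)
      (integralClosure (Algebra.adjoin K {t}) L) b))
  refine ⟨_, hpos, fun x hx => ?_⟩
  obtain ⟨b, s', hs', rfl⟩ := Fermat.Agent.S24Bridge.exists_div_of_mem _ hx
  have h1 : w (γ • algebraMap F L (s' : F)) = 1 := by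
    refine le_antisymm (hBw s') ?_
    by_contra hlt
    rw [not_le] at hlt
    exact hs' ((hPw s').mpr hlt)
  rw [map_div₀, smul_div₀', map_div₀]
  show w (γ • algebraMap F L (b : F)) / w (γ • algebraMap F L (s' : F)) ≤ 1
  rw [h1, div_one]
  exact hBw b

/-- (F1') + (V2): every `Γ`-translate of `w` is `exp (- e ord_v)` on `F` for a place `v` of `F`
above `t = 0`. -/
theorem exists_place_ord_eq_of_smul
    (t : F) (httr : Transcendental K t)
    (hfin : ∃ Γ' : Subgroup Γ, Γ'.FiniteIndex ∧ ∀ g ∈ Γ', ∀ x : L, g • x = x)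
    (ht : ∀ g : Γ, g • algebraMap F L t = algebraMap F L t)
    (hfix : ∀ x : L, (∀ g : Γ, g • x = x) →
      x ∈ IntermediateField.adjoin K {algebraMap F L t})
    (w : Valuation L (WithZero (Multiplicative ℤ))) (s : ℕ)
    (hwK : ∀ a : K, a ≠ 0 → w (algebraMap K L a) = 1)
    (hs : 0 < s)
    (hw : w (algebraMap F L t) = WithZero.exp (-(s : ℤ)))
    (γ : Γ) :
    ∃ (v : Place K F) (e : ℕ), 0 < v.ord t ∧ 0 < e ∧
      ∀ x : F, x ≠ 0 → -WithZero.log (w (γ • algebraMap F L x)) = (e : ℤ) * v.ord x := by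
  obtain ⟨v, hv, hγ⟩ := exists_place_of_smul t httr hfin ht hfix w s hwK hs hw γ
  have ht0 : t ≠ 0 := fun h => httr (h ▸ isAlgebraic_zero)
  have hnt : ∃ x : F, x ≠ 0 ∧ pullVal (F := F) w γ x ≠ 1 := by
    refine ⟨t, ht0, ?_⟩
    rw [pullVal_apply, ht, hw, ← WithZero.exp_zero]
    intro h
    have := WithZero.exp_injective h
    omega
  obtain ⟨e, he, h⟩ := exists_mul_ord_eq_of_valuation' v (pullVal (F := F) w γ) hγ hnt
  exact ⟨v, e, hv, he, h⟩

/-- uniqueness: the place induced by `w ∘ γ` is unique. -/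
theorem place_unique_of_smul_le_one
    (w : Valuation L (WithZero (Multiplicative ℤ))) (γ : Γ) (v v' : Place K F)
    (h : ∀ x ∈ v.toValuationSubring, w (γ • algebraMap F L x) ≤ 1)
    (h' : ∀ x ∈ v'.toValuationSubring, w (γ • algebraMap F L x) ≤ 1)
    (hnt : ∃ x : F, x ≠ 0 ∧ w (γ • algebraMap F L x) ≠ 1) : v = v' := by
  obtain ⟨e, he, hv⟩ := exists_mul_ord_eq_of_valuation' v (pullVal (F := F) w γ) h hnt
  obtain ⟨e', he', hv'⟩ := exists_mul_ord_eq_of_valuation' v' (pullVal (F := F) w γ) h' hnt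
  apply Place.ext
  ext x
  rcases eq_or_ne x 0 with rfl | hx
  · simp
  rw [Fermat.Agent.S24Res.mem_iff_ord_nonneg, Fermat.Agent.S24Res.mem_iff_ord_nonneg]
  have h1 := hv x hx
  have h2 := hv' x hx
  have h3 : (e : ℤ) * v.ord x = (e' : ℤ) * v'.ord x := by rw [← h1, ← h2]
  have he0 : (0 : ℤ) < e := by exact_mod_cast he
  have he0' : (0 : ℤ) < e' := by exact_mod_cast he'
  constructor
  · intro hx0
    have : 0 ≤ (e' : ℤ) * v'.ord x := by rw [← h3]; positivity
    exact nonneg_of_mul_nonneg_right this he0'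
  · intro hx0
    have : 0 ≤ (e : ℤ) * v.ord x := by rw [h3]; positivity
    exact nonneg_of_mul_nonneg_right this he0

end Fermat.Agent.F3Places
end
end MergeWrap_F3_Dict_PlacesConv

section MergeWrap_F3_Dict_Width -- from F3/Dict/Width.lean

set_option autoImplicit false

namespace Fermat.Agent.F3Places

theorem card_filter_dvd_range (h m : ℕ) (hh : 0 < h) :
    ((Finset.range (h * m)).filter (fun k => h ∣ k)).card = m := by
  have key : (Finset.range (h * m)).filter (fun k => h ∣ k) =
      (Finset.range m).image (fun i => h * i) := by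
    ext k
    simp only [Finset.mem_filter, Finset.mem_range, Finset.mem_image]
    constructor
    · rintro ⟨hk, i, rfl⟩
      exact ⟨i, Nat.lt_of_mul_lt_mul_left hk, rfl⟩
    · rintro ⟨i, hi, rfl⟩
      exact ⟨Nat.mul_lt_mul_of_pos_left hi hh, dvd_mul_right h i⟩
  rw [key, Finset.card_image_of_injective _ (fun a b hab => Nat.eq_of_mul_eq_mul_left hh hab),
    Finset.card_range]

/-- the subgroup `{k | γ⁻¹ g^k γ ∈ H}` of `ℤ`. -/
def conjPowSubgroup {Γ : Type*} [Group Γ] (H : Subgroup Γ) (g γ : Γ) : AddSubgroup ℤ where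
  carrier := {k | γ⁻¹ * g ^ k * γ ∈ H}
  zero_mem' := by
    show γ⁻¹ * g ^ (0 : ℤ) * γ ∈ H
    simp
  add_mem' := by
    intro a b ha hb
    show γ⁻¹ * g ^ (a + b) * γ ∈ H
    have : γ⁻¹ * g ^ (a + b) * γ = (γ⁻¹ * g ^ a * γ) * (γ⁻¹ * g ^ b * γ) := by
      rw [zpow_add]; group
    rw [this]
    exact H.mul_mem ha hb
  neg_mem' := by
    intro a ha
    show γ⁻¹ * g ^ (-a) * γ ∈ H
    have : γ⁻¹ * g ^ (-a) * γ = (γ⁻¹ * g ^ a * γ)⁻¹ := by
      rw [zpow_neg]; group
    rw [this]
    exact H.inv_mem ha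

theorem mem_conjPowSubgroup {Γ : Type*} [Group Γ] (H : Subgroup Γ) (g γ : Γ) (k : ℤ) :
    k ∈ conjPowSubgroup H g γ ↔ γ⁻¹ * g ^ k * γ ∈ H := Iff.rfl

open Classical in
/-- (CY) the width: `h * #{k < s | γ⁻¹ g^k γ ∈ H} = s` and `γ⁻¹ g^h γ ∈ H`. -/
theorem exists_width {Γ : Type*} [Group Γ] (H : Subgroup Γ) (g γ : Γ) (s : ℕ) (hs : 0 < s)
    (hgs : γ⁻¹ * g ^ s * γ ∈ H) :
    ∃ h : ℕ, 0 < h ∧
      h * ((Finset.range s).filter (fun k => γ⁻¹ * g ^ k * γ ∈ H)).card = s ∧
      γ⁻¹ * g ^ h * γ ∈ H := by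
  obtain ⟨a, ha⟩ := Int.subgroup_cyclic (conjPowSubgroup H g γ)
  have hmem : ∀ k : ℤ, γ⁻¹ * g ^ k * γ ∈ H ↔ a ∣ k := by
    intro k
    rw [← mem_conjPowSubgroup, ha, ← AddSubgroup.zmultiples_eq_closure,
      Int.mem_zmultiples_iff]
  have hsa : a ∣ (s : ℤ) := by
    rw [← hmem]
    simpa using hgs
  have ha0 : a ≠ 0 := by
    rintro rfl
    have := zero_dvd_iff.mp hsa
    omega
  refine ⟨a.natAbs, Int.natAbs_pos.mpr ha0, ?_, ?_⟩
  · have hdvd : a.natAbs ∣ s := Int.natAbs_dvd_natAbs.mpr hsa
    obtain ⟨m, rfl⟩ := hdvd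
    have hfil : (Finset.range (a.natAbs * m)).filter (fun k => γ⁻¹ * g ^ k * γ ∈ H) =
        (Finset.range (a.natAbs * m)).filter (fun k => a.natAbs ∣ k) := by
      refine Finset.filter_congr fun k _ => ?_
      have := hmem (k : ℤ)
      rw [zpow_natCast] at this
      rw [this, Int.dvd_natCast]
    rw [hfil, card_filter_dvd_range _ _ (Int.natAbs_pos.mpr ha0)]
  · have := (hmem (a.natAbs : ℤ)).mpr (by rw [Int.dvd_natCast])
    rwa [zpow_natCast] at this

end Fermat.Agent.F3Places
end MergeWrap_F3_Dict_Width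

section MergeWrap_F3_Dict_PlacesHom -- from F3/Dict/PlacesHom.lean

set_option autoImplicit false
set_option linter.style.haveILetI false
set_option linter.unusedSectionVars false

noncomputable section
open IntermediateField AlgebraicCurve

namespace Fermat.Agent.F3Places

variable {K F L Γ : Type*} [Field K] [IsAlgClosed K] [CharZero K]
    [Field F] [Algebra K F] [Field L] [Algebra K L]
    [Group Γ] [MulSemiringAction Γ L] [SMulCommClass Γ K L]

/-- one fibre, places → points: a place above `t = 0` is `w ∘ γ ∘ φ` up to the factor `e`, and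
`h e = s`, `γ⁻¹ g^h γ ∈ H`. -/
theorem exists_point_of_place_fibre_hom (φ : F →ₐ[K] L)
    (t : F) (httr : Transcendental K t)
    (hfin : ∃ Γ' : Subgroup Γ, Γ'.FiniteIndex ∧ ∀ g ∈ Γ', ∀ x : L, g • x = x)
    (ht : ∀ g : Γ, g • φ t = φ t)
    (hfix : ∀ x : L, (∀ g : Γ, g • x = x) → x ∈ IntermediateField.adjoin K {φ t})
    (H : Subgroup Γ) (hH : ∀ g : Γ, g ∈ H ↔ ∀ x : F, g • φ x = φ x)
    (w : Valuation L (WithZero (Multiplicative ℤ))) (s : ℕ) (g : Γ)
    (hwK : ∀ a : K, a ≠ 0 → w (algebraMap K L a) = 1)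
    (hs : 0 < s)
    (hw : w (φ t) = WithZero.exp (-(s : ℤ)))
    (hg : ∀ x, w (g • x) = w x)
    (hgs : ∀ k : ℤ, (∀ x : L, (g ^ k) • x = x) ↔ (s : ℤ) ∣ k)
    (v : Place K F) (hv : 0 < v.ord t) :
    ∃ (γ : Γ) (e h : ℕ), 0 < e ∧ 0 < h ∧ h * e = s ∧ γ⁻¹ * g ^ h * γ ∈ H ∧
      ∀ x : F, x ≠ 0 → -WithZero.log (w (γ • φ x)) = (e : ℤ) * v.ord x := by
  classical
  letI : Algebra F L := φ.toRingHom.toAlgebra
  haveI : IsScalarTower K F L := IsScalarTower.of_algebraMap_eq (fun a => (φ.commutes a).symm)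
  have hmap : ∀ x : F, algebraMap F L x = φ x := fun _ => rfl
  obtain ⟨γ, e, he, hve⟩ := exists_smul_ord_eq_of_place' t httr hfin ht hfix w s hwK hs hw v hv
  have hcard := ramification_eq_card t httr hfin ht hfix H hH w s g hwK hs hw hg hgs v γ e hve
  have hgsH : γ⁻¹ * g ^ s * γ ∈ H := by
    rw [hH]
    intro x
    have h1 : ∀ y : L, (g ^ s) • y = y := by
      have := (hgs (s : ℤ)).mpr dvd_rfl
      simpa using this
    rw [mul_smul, mul_smul, h1, inv_smul_smul]
  obtain ⟨h, hh, hhe, hmem⟩ := exists_width H g γ s hs hgsH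
  rw [← hcard] at hhe
  exact ⟨γ, e, h, he, hh, hhe, hmem, hve⟩

/-- one fibre, points → places. -/
theorem exists_place_of_point_fibre_hom (φ : F →ₐ[K] L)
    (t : F) (httr : Transcendental K t)
    (hfin : ∃ Γ' : Subgroup Γ, Γ'.FiniteIndex ∧ ∀ g ∈ Γ', ∀ x : L, g • x = x)
    (ht : ∀ g : Γ, g • φ t = φ t)
    (hfix : ∀ x : L, (∀ g : Γ, g • x = x) → x ∈ IntermediateField.adjoin K {φ t})
    (H : Subgroup Γ) (hH : ∀ g : Γ, g ∈ H ↔ ∀ x : F, g • φ x = φ x)
    (w : Valuation L (WithZero (Multiplicative ℤ))) (s : ℕ) (g : Γ)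
    (hwK : ∀ a : K, a ≠ 0 → w (algebraMap K L a) = 1)
    (hs : 0 < s)
    (hw : w (φ t) = WithZero.exp (-(s : ℤ)))
    (hg : ∀ x, w (g • x) = w x)
    (hgs : ∀ k : ℤ, (∀ x : L, (g ^ k) • x = x) ↔ (s : ℤ) ∣ k)
    (γ : Γ) :
    ∃ (v : Place K F) (e h : ℕ), 0 < v.ord t ∧ 0 < e ∧ 0 < h ∧ h * e = s ∧
      γ⁻¹ * g ^ h * γ ∈ H ∧
      ∀ x : F, x ≠ 0 → -WithZero.log (w (γ • φ x)) = (e : ℤ) * v.ord x := by
  classical
  letI : Algebra F L := φ.toRingHom.toAlgebra
  haveI : IsScalarTower K F L := IsScalarTower.of_algebraMap_eq (fun a => (φ.commutes a).symm)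
  have hmap : ∀ x : F, algebraMap F L x = φ x := fun _ => rfl
  obtain ⟨v, e, hv, he, hve⟩ :=
    exists_place_ord_eq_of_smul t httr hfin ht hfix w s hwK hs hw γ
  have hcard := ramification_eq_card t httr hfin ht hfix H hH w s g hwK hs hw hg hgs v γ e hve
  have hgsH : γ⁻¹ * g ^ s * γ ∈ H := by
    rw [hH]
    intro x
    have h1 : ∀ y : L, (g ^ s) • y = y := by
      have := (hgs (s : ℤ)).mpr dvd_rfl
      simpa using this
    rw [mul_smul, mul_smul, h1, inv_smul_smul]
  obtain ⟨h, hh, hhe, hmem⟩ := exists_width H g γ s hs hgsH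
  rw [← hcard] at hhe
  exact ⟨v, e, h, hv, he, hh, hhe, hmem, hve⟩

/-- constants are fixed by `Γ`. -/
theorem smul_algebraMap_K (g : Γ) (a : K) : g • algebraMap K L a = algebraMap K L a := by
  rw [Algebra.algebraMap_eq_smul_one, smul_comm, smul_one]

/-- the fibre hypotheses for `t = j - c`. -/
theorem fibre_hyps_sub (φ : F →ₐ[K] L) (j : F) (jL : L) (hφj : φ j = jL)
    (hjtr : Transcendental K j) (hj : ∀ g : Γ, g • jL = jL)
    (hfix : ∀ x : L, (∀ g : Γ, g • x = x) → x ∈ IntermediateField.adjoin K {jL}) (c : K) :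
    Transcendental K (j - algebraMap K F c) ∧
    (∀ g : Γ, g • φ (j - algebraMap K F c) = φ (j - algebraMap K F c)) ∧
    (∀ x : L, (∀ g : Γ, g • x = x) →
      x ∈ IntermediateField.adjoin K {φ (j - algebraMap K F c)}) ∧
    φ (j - algebraMap K F c) = jL - algebraMap K L c := by
  have h4 : φ (j - algebraMap K F c) = jL - algebraMap K L c := by
    rw [map_sub, hφj, φ.commutes]
  refine ⟨?_, ?_, ?_, h4⟩
  · intro halg
    apply hjtr
    have := halg.add (isAlgebraic_algebraMap (R := K) (A := F) c)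
    rwa [sub_add_cancel] at this
  · intro g
    rw [h4, smul_sub, hj, smul_algebraMap_K]
  · intro x hx
    have := hfix x hx
    rw [h4]
    have heq : IntermediateField.adjoin K {jL - algebraMap K L c} =
        IntermediateField.adjoin K {jL} := by
      apply le_antisymm
      · rw [adjoin_simple_le_iff]
        exact sub_mem (mem_adjoin_simple_self K jL) (IntermediateField.algebraMap_mem _ c)
      · rw [adjoin_simple_le_iff]
        have h1 : jL - algebraMap K L c ∈ K⟮jL - algebraMap K L c⟯ :=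
          mem_adjoin_simple_self K _
        have h2 := add_mem h1 (IntermediateField.algebraMap_mem K⟮jL - algebraMap K L c⟯ c)
        rwa [sub_add_cancel] at h2
    rw [heq]
    exact this

/-- the fibre hypotheses for `t = j⁻¹`. -/
theorem fibre_hyps_inv (φ : F →ₐ[K] L) (j : F) (jL : L) (hφj : φ j = jL)
    (hjtr : Transcendental K j) (hj : ∀ g : Γ, g • jL = jL)
    (hfix : ∀ x : L, (∀ g : Γ, g • x = x) → x ∈ IntermediateField.adjoin K {jL}) :
    Transcendental K j⁻¹ ∧
    (∀ g : Γ, g • φ j⁻¹ = φ j⁻¹) ∧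
    (∀ x : L, (∀ g : Γ, g • x = x) → x ∈ IntermediateField.adjoin K {φ j⁻¹}) ∧
    φ j⁻¹ = jL⁻¹ := by
  have h4 : φ j⁻¹ = jL⁻¹ := by rw [map_inv₀, hφj]
  refine ⟨fun halg => hjtr (by simpa using halg.inv), ?_, ?_, h4⟩
  · intro g
    rw [h4, smul_inv'', hj]
  · intro x hx
    have := hfix x hx
    rw [h4]
    have heq : IntermediateField.adjoin K {jL⁻¹} = IntermediateField.adjoin K {jL} := by
      apply le_antisymm
      · rw [adjoin_simple_le_iff]
        exact inv_mem (mem_adjoin_simple_self K jL)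
      · rw [adjoin_simple_le_iff]
        have hmem : (jL⁻¹)⁻¹ ∈ K⟮jL⁻¹⟯ := inv_mem (mem_adjoin_simple_self K jL⁻¹)
        rwa [inv_inv] at hmem
    rw [heq]
    exact this

/-- `F` is a function field, hom form. -/
theorem isFunctionFieldOver_of_hom (φ : F →ₐ[K] L) (j : F) (jL : L) (hφj : φ j = jL)
    (hjtr : Transcendental K j)
    (hfin : ∃ Γ' : Subgroup Γ, Γ'.FiniteIndex ∧ ∀ g ∈ Γ', ∀ x : L, g • x = x)
    (hj : ∀ g : Γ, g • jL = jL)
    (hfix : ∀ x : L, (∀ g : Γ, g • x = x) → x ∈ IntermediateField.adjoin K {jL}) :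
    Fermat.Agent.S24Diff.IsFunctionFieldOver K F j := by
  letI : Algebra F L := φ.toRingHom.toAlgebra
  haveI : IsScalarTower K F L := IsScalarTower.of_algebraMap_eq (fun a => (φ.commutes a).symm)
  have hmap : ∀ x : F, algebraMap F L x = φ x := fun _ => rfl
  exact isFunctionFieldOver_of_galois_datum j hjtr hfin (by rw [hmap, hφj]; exact hj)
    (by rw [hmap, hφj]; exact hfix)

/-- every place lies over a point of the `j`-line. -/
theorem exists_ord_pos_or_neg_of_hom (φ : F →ₐ[K] L) (j : F) (jL : L) (hφj : φ j = jL)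
    (hjtr : Transcendental K j)
    (hfin : ∃ Γ' : Subgroup Γ, Γ'.FiniteIndex ∧ ∀ g ∈ Γ', ∀ x : L, g • x = x)
    (hj : ∀ g : Γ, g • jL = jL)
    (hfix : ∀ x : L, (∀ g : Γ, g • x = x) → x ∈ IntermediateField.adjoin K {jL})
    (v : Place K F) :
    (∃ c : K, 0 < v.ord (j - algebraMap K F c)) ∨ 0 < v.ord j⁻¹ := by
  have hff := isFunctionFieldOver_of_hom φ j jL hφj hjtr hfin hj hfix
  have hjK : j ∉ Set.range (algebraMap K F) := by
    rintro ⟨a, rfl⟩
    exact hjtr (isAlgebraic_algebraMap (R := K) (A := F) a)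
  rcases Fermat.Agent.S24Res.exists_ord_sub_pos_or_neg hff v hjK with h | h
  · exact Or.inl h
  · right
    rw [Place.ord_inv]
    omega

end Fermat.Agent.F3Places
end
end MergeWrap_F3_Dict_PlacesHom
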